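import Fermat.Agent.LT.C0.Defs
import Mathlib.AlgebraicGeometry.EllipticCurve.Weierstrass
import Mathlib.Tactic

/-!
# An integral model with prescribed invariants, good supersingular at `3`

Variant of `LT/C0/Model`: here `3 ∣ G₄`, `3 ∤ D` and `D ≡ ±1 (mod 9)`.
-/

set_option autoImplicit false

open WeierstrassCurve Fermat.Agent.LT.C0

namespace Fermat.Agent.Extra

/-- With `3 ∣ G₄`, `3 ∤ D` and `D ≡ ±1 (mod 9)` the relation forces `27 ∣ G₆`. -/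
theorem twentySeven_dvd_of_supersingular {G₄ G₆ D : ℤ} (hrel : G₄ ^ 3 - G₆ ^ 2 = 1728 * D)
    (h3 : (3 : ℤ) ∣ G₄) (hD : ¬ (3 : ℤ) ∣ D) (hc : IsCubeClassThree D) : (27 : ℤ) ∣ G₆ := by
  obtain ⟨g, rfl⟩ := h3
  have h9 : (9 : ℤ) ∣ G₆ := by
    have h : (3 : ℤ) ^ 3 ∣ G₆ ^ 2 := ⟨g ^ 3 - 64 * D, by linear_combination -hrel⟩
    obtain ⟨e, rfl⟩ : (3 : ℤ) ∣ G₆ :=
      Int.prime_three.dvd_of_dvd_pow ((dvd_pow_self (3 : ℤ) (by norm_num)).trans h)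
    obtain ⟨w, hw⟩ := h
    obtain ⟨f, rfl⟩ : (3 : ℤ) ∣ e :=
      Int.prime_three.dvd_of_dvd_pow (n := 2) ⟨w, by linarith⟩
    exact ⟨f, by ring⟩
  obtain ⟨h, rfl⟩ := h9
  have e : g ^ 3 - 3 * h ^ 2 = 64 * D := by linarith
  obtain ⟨m, u, rfl, hu⟩ := hc
  have hm : m = 0 := by
    by_contra hm
    exact hD (dvd_mul_of_dvd_left (dvd_pow_self 3 (by omega)) u)
  subst hm
  have key : ∀ g u h : ZMod 9, (u = 1 ∨ u = -1) → g ^ 3 - 3 * h ^ 2 = 64 * u → 3 * h = 0 := by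
    decide
  have hu' : (u : ZMod 9) = 1 ∨ (u : ZMod 9) = -1 := by
    rcases hu with h' | h'
    · left
      rw [← sub_eq_zero]
      exact_mod_cast (ZMod.intCast_zmod_eq_zero_iff_dvd _ 9).2 h'
    · right
      rw [← sub_eq_zero, sub_neg_eq_add]
      exact_mod_cast (ZMod.intCast_zmod_eq_zero_iff_dvd _ 9).2 h'
  have e9 := congrArg (Int.cast : ℤ → ZMod 9) e
  push_cast [pow_zero, one_mul, mul_zero] at e9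
  have h3h : (9 : ℤ) ∣ 3 * h :=
    (ZMod.intCast_zmod_eq_zero_iff_dvd _ 9).1 (by push_cast; exact key _ _ _ hu' e9)
  obtain ⟨w, hw⟩ := h3h
  exact ⟨w, by linarith⟩

/-- `G₄, G₆` are the invariants of an integral curve, good supersingular at `3`, with
discriminant `D`. -/
theorem exists_integral_model_supersingular (W : WeierstrassCurve ℤ) {G₄ G₆ D l : ℤ}
    (hrel : G₄ ^ 3 - G₆ ^ 2 = 1728 * D) (h3 : (3 : ℤ) ∣ G₄) (hD : ¬ (3 : ℤ) ∣ D)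
    (hc : IsCubeClassThree D) (h4 : (2 : ℤ) ^ 11 ∣ G₄ - l ^ 4 * W.c₄)
    (h6 : (2 : ℤ) ^ 11 ∣ G₆ - l ^ 6 * W.c₆) :
    ∃ W' : WeierstrassCurve ℤ, W'.c₄ = G₄ ∧ W'.c₆ = G₆ ∧ W'.Δ = D := by
  obtain ⟨g, hg⟩ := h3
  obtain ⟨w, hw⟩ := twentySeven_dvd_of_supersingular hrel ⟨g, hg⟩ hD hc
  have hcop : IsCoprime ((2 : ℤ) ^ 11) ((3 : ℤ) ^ 4) := by
    rw [Int.isCoprime_iff_gcd_eq_one]; norm_num
  obtain ⟨i, j, hij⟩ := hcop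
  -- `B₂ ≡ l² b₂ (mod 2¹¹)` and `B₂ ≡ 0 (mod 3⁴)`
  obtain ⟨B, hB⟩ : ∃ B : ℤ, B = l ^ 2 * W.b₂ * j := ⟨_, rfl⟩
  set B₂ : ℤ := 3 ^ 4 * B with hB₂
  have ec4 : W.c₄ = W.b₂ ^ 2 - 24 * W.b₄ := rfl
  have ec6 : W.c₆ = -W.b₂ ^ 3 + 36 * W.b₂ * W.b₄ - 216 * W.b₆ := rfl
  obtain ⟨u2, hu2⟩ : (2 : ℤ) ^ 11 ∣ B₂ - l ^ 2 * W.b₂ :=
    ⟨-(l ^ 2 * W.b₂ * i), by rw [hB₂, hB]; linear_combination (l ^ 2 * W.b₂) * hij⟩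
  obtain ⟨u4, hu4⟩ := h4
  obtain ⟨u6, hu6⟩ := h6
  have h24 : (24 : ℤ) ∣ B₂ ^ 2 - G₄ := by
    rw [show (24 : ℤ) = 2 ^ 3 * 3 by norm_num]
    refine IsCoprime.mul_dvd (by rw [Int.isCoprime_iff_gcd_eq_one]; norm_num) ?_
      ⟨3 ^ 7 * B ^ 2 - g, by rw [hB₂, hg]; ring⟩
    refine ⟨3 * (l ^ 4 * W.b₄) + 256 * (u2 * (B₂ + l ^ 2 * W.b₂)) - 256 * u4, ?_⟩
    linear_combination (B₂ + l ^ 2 * W.b₂) * hu2 - hu4 - l ^ 4 * ec4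
  obtain ⟨B₄, hB₄⟩ := h24
  obtain ⟨u8, hu8⟩ : (2 : ℤ) ^ 8 ∣ B₄ - l ^ 4 * W.b₄ := by
    have hc' : IsCoprime ((2 : ℤ) ^ 8) 3 := by rw [Int.isCoprime_iff_gcd_eq_one]; norm_num
    refine hc'.dvd_of_dvd_mul_left ?_
    refine ⟨u2 * (B₂ + l ^ 2 * W.b₂) - u4, ?_⟩
    apply mul_left_cancel₀ (show (8 : ℤ) ≠ 0 by norm_num)
    linear_combination (B₂ + l ^ 2 * W.b₂) * hu2 - hu4 - hB₄ - l ^ 4 * ec4
  have h216 : (216 : ℤ) ∣ -B₂ ^ 3 + 36 * B₂ * B₄ - G₆ := by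
    rw [show (216 : ℤ) = 2 ^ 3 * 27 by norm_num]
    refine IsCoprime.mul_dvd (by rw [Int.isCoprime_iff_gcd_eq_one]; norm_num) ?_
      ⟨-3 ^ 9 * B ^ 3 + 4 * 3 ^ 3 * B * B₄ - w, by rw [hw, hB₂]; ring⟩
    refine ⟨27 * (l ^ 6 * W.b₆) - 256 * (u2 * (B₂ ^ 2 + B₂ * (l ^ 2 * W.b₂) + (l ^ 2 * W.b₂) ^ 2))
      + 36 * 256 * (u2 * B₄) + 36 * 32 * (l ^ 2 * W.b₂ * u8) - 256 * u6, ?_⟩
    linear_combination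
      (-(B₂ ^ 2 + B₂ * (l ^ 2 * W.b₂) + (l ^ 2 * W.b₂) ^ 2) + 36 * B₄) * hu2
      + 36 * (l ^ 2 * W.b₂) * hu8 - hu6 - l ^ 6 * ec6
  obtain ⟨B₆, hB₆⟩ := h216
  obtain ⟨v6, hv6⟩ : (4 : ℤ) ∣ B₆ - l ^ 6 * W.b₆ := by
    have h : (32 : ℤ) ∣ 216 * (B₆ - l ^ 6 * W.b₆) := by
      refine ⟨-64 * (u2 * (B₂ ^ 2 + B₂ * (l ^ 2 * W.b₂) + (l ^ 2 * W.b₂) ^ 2))
        + 36 * 64 * (u2 * B₄) + 36 * 8 * (l ^ 2 * W.b₂ * u8) - 64 * u6, ?_⟩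
      linear_combination
        (-(B₂ ^ 2 + B₂ * (l ^ 2 * W.b₂) + (l ^ 2 * W.b₂) ^ 2) + 36 * B₄) * hu2
        + 36 * (l ^ 2 * W.b₂) * hu8 - hu6 - l ^ 6 * ec6 - hB₆
    omega
  -- coefficients
  set A₁ : ℤ := l * W.a₁ with hA₁
  set A₃ : ℤ := l ^ 3 * W.a₃ with hA₃
  obtain ⟨A₂, hA₂⟩ : (4 : ℤ) ∣ B₂ - A₁ ^ 2 :=
    ⟨512 * u2 + l ^ 2 * W.a₂, by
      have ec : W.b₂ = W.a₁ ^ 2 + 4 * W.a₂ := rfl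
      rw [hA₁]; linear_combination hu2 + l ^ 2 * ec⟩
  obtain ⟨A₄, hA₄⟩ : (2 : ℤ) ∣ B₄ - A₁ * A₃ :=
    ⟨128 * u8 + l ^ 4 * W.a₄, by
      have ec : W.b₄ = 2 * W.a₄ + W.a₁ * W.a₃ := rfl
      rw [hA₁, hA₃]; linear_combination hu8 + l ^ 4 * ec⟩
  obtain ⟨A₆, hA₆⟩ : (4 : ℤ) ∣ B₆ - A₃ ^ 2 :=
    ⟨v6 + l ^ 6 * W.a₆, by
      have ec : W.b₆ = W.a₃ ^ 2 + 4 * W.a₆ := rfl
      rw [hA₃]; linear_combination hv6 + l ^ 6 * ec⟩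
  refine ⟨⟨A₁, A₂, A₃, A₄, A₆⟩, ?_⟩
  set W' : WeierstrassCurve ℤ := ⟨A₁, A₂, A₃, A₄, A₆⟩
  have e2 : W'.b₂ = B₂ := by
    show A₁ ^ 2 + 4 * A₂ = B₂
    linear_combination -hA₂
  have e4 : W'.b₄ = B₄ := by
    show 2 * A₄ + A₁ * A₃ = B₄
    linear_combination -hA₄
  have e6 : W'.b₆ = B₆ := by
    show A₃ ^ 2 + 4 * A₆ = B₆
    linear_combination -hA₆
  have c4 : W'.c₄ = G₄ := by rw [WeierstrassCurve.c₄, e2, e4]; linear_combination hB₄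
  have c6 : W'.c₆ = G₆ := by rw [WeierstrassCurve.c₆, e2, e4, e6]; linear_combination hB₆
  refine ⟨c4, c6, mul_left_cancel₀ (show (1728 : ℤ) ≠ 0 by norm_num) ?_⟩
  rw [W'.c_relation, c4, c6, hrel]

end Fermat.Agent.Extra
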