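import Fermat.Agent.Extra.Switch.Statements
import Fermat.Agent.Extra.Switch.ModelSupersingular
import Fermat.Agent.LT.C0.SwitchThree
import Fermat.Agent.LT.C0.Irreducible
import Fermat.Agent.LT.C0.Congruence

/-!
# The admissible member of the family attached to a local parameter at `3`
-/

set_option autoImplicit false

open WeierstrassCurve Fermat.Agent.LT.C0

namespace Fermat.Agent.Extra

/-- All members along a progression have semistable integral models of the required local type. -/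
theorem exists_members_of_param (W : WeierstrassCurve ℤ) (hW : W.IsSemistableModel) (hΔ : W.Δ ≠ 0)
    (hP : HasLocalParameter W) :
    ∃ (a b₀ : ℤ) (N : ℕ), a ≠ 0 ∧ 0 < N ∧ ∀ k : ℤ, ∃ W' : WeierstrassCurve ℤ,
      (3 : ℤ) ^ 20 * W'.c₄ = fourExplicit W.c₄ W.c₆ a (b₀ + N * k) ∧
      (3 : ℤ) ^ 30 * W'.c₆ = sixExplicit W.c₄ W.c₆ a (b₀ + N * k) ∧
      W'.Δ ≠ 0 ∧ W'.IsSemistableModel ∧ IsCubeClassThree W'.Δ ∧
      ((¬ (3 : ℤ) ∣ W'.Δ ∧ (3 : ℤ) ∣ W'.c₄) ∨ ((3 : ℤ) ∣ W'.Δ ∧ ¬ (3 : ℤ) ∣ W'.c₄)) := by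
  obtain ⟨t, K, hloc⟩ := hP
  obtain ⟨v, d, hd, hD⟩ := (Int.finiteMultiplicity_iff.2 ⟨by norm_num, hΔ⟩ :
    FiniteMultiplicity (3 : ℤ) W.Δ).exists_eq_pow_mul_and_not_dvd |>
      fun ⟨d, h1, h2⟩ => (⟨_, d, h2, h1⟩ : ∃ (v : ℕ) (d : ℤ), ¬ (3 : ℤ) ∣ d ∧ W.Δ = 3 ^ v * d)
  set a : ℤ := (10 * d) ^ 22 with ha
  have hd0 : d ≠ 0 := fun h => hd (h ▸ dvd_zero _)
  have ha0 : a ≠ 0 := pow_ne_zero _ (mul_ne_zero (by norm_num) hd0)
  have h3a : ¬ (3 : ℤ) ∣ a := fun h => by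
    rcases Int.prime_three.dvd_or_dvd (Int.prime_three.dvd_of_dvd_pow h) with h | h
    · norm_num at h
    · exact hd h
  obtain ⟨i, j, hij⟩ : IsCoprime ((3 : ℤ) ^ K) a :=
    (Int.prime_three.coprime_iff_not_dvd.mpr h3a).pow_left
  refine ⟨a, t * a * (j * a) + i * 3 ^ K, (3 ^ K * a).natAbs, ha0,
    Int.natAbs_pos.2 (mul_ne_zero (pow_ne_zero _ (by norm_num)) ha0), fun k => ?_⟩
  set N : ℤ := ((3 ^ K * a).natAbs : ℤ) with hN
  have hNdvd : (3 : ℤ) ^ K * a ∣ N := Int.dvd_natAbs.2 dvd_rfl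
  set b : ℤ := t * a * (j * a) + i * 3 ^ K + N * k with hb
  have hb3 : (3 : ℤ) ^ K ∣ b - t * a := by
    have e : b - t * a = N * k + 3 ^ K * (i - t * a * i) := by
      rw [hb]
      linear_combination (t * a) * hij
    rw [e]
    exact dvd_add (((dvd_mul_right _ a).trans hNdvd).mul_right k) (dvd_mul_right _ _)
  have hba : a ∣ b - 1 := by
    have e : b - 1 = N * k + a * (t * a * j - j) := by
      rw [hb]; linear_combination hij
    rw [e]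
    exact dvd_add (((dvd_mul_left a _).trans hNdvd).mul_right k) (dvd_mul_right _ _)
  obtain ⟨G₄, D, hG₄, hDF, hcube, hcase⟩ := hloc a b h3a hb3
  set X₄ := fourExplicit W.c₄ W.c₆ a b with hX₄
  set X₆ := sixExplicit W.c₄ W.c₆ a b with hX₆
  set F := cuspPoly W.c₄ W.c₆ a b with hF
  have hrel := explicit_relation hΔ W.c_relation.symm a b
  rw [← hX₄, ← hX₆, ← hF] at hrel
  obtain ⟨G₆, hG₆⟩ : (3 : ℤ) ^ 30 ∣ X₆ := by
    refine (Int.pow_dvd_pow_iff (show 2 ≠ 0 by norm_num)).1 ⟨G₄ ^ 3 - 1728 * D, ?_⟩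
    rw [hG₄, hDF] at hrel
    linear_combination -hrel
  have hrel' : G₄ ^ 3 - G₆ ^ 2 = 1728 * D := by
    rw [hG₄, hG₆, hDF] at hrel
    exact mul_left_cancel₀ (pow_ne_zero 60 (show (3 : ℤ) ≠ 0 by norm_num))
      (by linear_combination hrel)
  have hD0 : D ≠ 0 := by
    obtain ⟨m, u, rfl, hu⟩ := hcube
    refine mul_ne_zero (pow_ne_zero _ (by norm_num)) fun h => ?_
    subst h
    rcases hu with h | h <;> norm_num at h
  -- at `2`
  obtain ⟨i₂, l, hl⟩ : IsCoprime ((2 : ℤ) ^ 11) (3 ^ 5) := by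
    rw [Int.isCoprime_iff_gcd_eq_one]; norm_num
  have h2a : ((2 ^ 11 : ℕ) : ℤ) ∣ a := by
    rw [Nat.cast_pow, ha]
    exact (pow_dvd_pow 2 (by norm_num : 11 ≤ 22)).trans
      (pow_dvd_pow_of_dvd (dvd_mul_of_dvd_left (by norm_num) _) 22)
  obtain ⟨h24, h26, -⟩ := explicit_congr_self W.c₄ W.c₆ (2 ^ 11) h2a (h2a.trans hba)
  rw [Nat.cast_pow, Nat.cast_ofNat] at h24 h26
  have hcop : IsCoprime ((2 : ℤ) ^ 11) 3 := by rw [Int.isCoprime_iff_gcd_eq_one]; norm_num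
  have hlu : (2 : ℤ) ^ 11 ∣ l * 3 ^ 5 - 1 := ⟨-i₂, by linear_combination hl⟩
  have h4m : (2 : ℤ) ^ 11 ∣ G₄ - l ^ 4 * W.c₄ := by
    refine (hcop.pow_right (n := 20)).dvd_of_dvd_mul_left ?_
    rw [show 3 ^ 20 * (G₄ - l ^ 4 * W.c₄) = (X₄ - W.c₄) - ((l * 3 ^ 5) ^ 4 - 1 ^ 4) * W.c₄ by
      rw [hG₄]; ring]
    exact dvd_sub h24 ((hlu.trans (sub_dvd_pow_sub_pow _ _ 4)).mul_right _)
  have h6m : (2 : ℤ) ^ 11 ∣ G₆ - l ^ 6 * W.c₆ := by
    refine (hcop.pow_right (n := 30)).dvd_of_dvd_mul_left ?_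
    rw [show 3 ^ 30 * (G₆ - l ^ 6 * W.c₆) = (X₆ - W.c₆) - ((l * 3 ^ 5) ^ 6 - 1 ^ 6) * W.c₆ by
      rw [hG₆]; ring]
    exact dvd_sub h26 ((hlu.trans (sub_dvd_pow_sub_pow _ _ 6)).mul_right _)
  obtain ⟨W', e4, e6, eD⟩ : ∃ W' : WeierstrassCurve ℤ, W'.c₄ = G₄ ∧ W'.c₆ = G₆ ∧ W'.Δ = D := by
    rcases hcase with ⟨h3D, h3G⟩ | ⟨h3D, h3G⟩
    · exact exists_integral_model_supersingular W hrel' h3G h3D hcube h4m h6m
    · exact exists_integral_model W hrel' h3G h3D h4m h6m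
  refine ⟨W', by rw [e4, ← hG₄], by rw [e6, ← hG₆], by rwa [eD], ?_, by rwa [eD],
    by rwa [eD, e4]⟩
  intro q hq hqD hq4
  rw [eD] at hqD
  rw [e4] at hq4
  by_cases hq3 : q = 3
  · subst hq3
    rcases hcase with ⟨h, -⟩ | ⟨-, h⟩
    · exact h hqD
    · exact h hq4
  have hqp := Nat.prime_iff_prime_int.1 hq
  have hqX : (q : ℤ) ∣ X₄ := hG₄ ▸ dvd_mul_of_dvd_right hq4 _
  have hqF : (q : ℤ) ∣ W.Δ ∨ (q : ℤ) ∣ F :=
    (hqp.dvd_or_dvd (hDF ▸ dvd_mul_of_dvd_right hqD _)).imp id hqp.dvd_of_dvd_pow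
  by_cases hqa : (q : ℤ) ∣ a
  · obtain ⟨k4, -, kF⟩ := explicit_congr_self W.c₄ W.c₆ q hqa (hqa.trans hba)
    have hq4' : (q : ℤ) ∣ W.c₄ := (dvd_sub_right hqX).1 k4
    rcases hqF with h | h
    · exact hW q hq h hq4'
    · exact hqp.not_dvd_one ((dvd_sub_right h).1 kF)
  · have hq10 : ∀ z : ℤ, (q : ℤ) ∣ z → ¬ z ∣ 10 * d := fun z hz hz' =>
      hqa (dvd_pow (hz.trans hz') (by norm_num))
    have hq2 : q ≠ 2 := fun h => hq10 2 (by simp [h]) (dvd_mul_of_dvd_left (by norm_num) _)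
    have hq5 : q ≠ 5 := fun h => hq10 5 (by simp [h]) (dvd_mul_of_dvd_left (by norm_num) _)
    have hqD' : ¬ (q : ℤ) ∣ W.Δ := fun h => by
      rw [hD] at h
      rcases hqp.dvd_or_dvd h with h | h
      · exact hq3 ((Nat.prime_dvd_prime_iff_eq hq Nat.prime_three).1
          (Int.natCast_dvd_natCast.1 (hqp.dvd_of_dvd_pow h)))
      · exact hq10 d h (dvd_mul_left _ _)
    exact not_dvd_explicit W.c_relation.symm hq ⟨hq2, hq3, hq5⟩ hqD' hqa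
      ⟨hqX, hqF.resolve_left hqD'⟩

/-- A local parameter at `3` gives an admissible curve congruent mod `5`. -/
theorem exists_admissible_of_param (W : WeierstrassCurve ℤ) (hW : W.IsSemistableModel)
    (hD : W.Δ ≠ 0) (h4 : ¬ (3 : ℤ) ∣ W.c₄) (hP : HasLocalParameter W) :
    ∃ W' : WeierstrassCurve ℤ, IsThreeAdmissible W' ∧
      ∀ ℓ : ℕ, ℓ.Prime → W.IsGoodPrimeFor ℓ → W'.IsGoodPrimeFor ℓ → ℓ ≠ 5 →
        (5 : ℤ) ∣ W'.apOfModel ℓ - W.apOfModel ℓ := by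
  obtain ⟨a, b₀, N, ha, hN, hk⟩ := exists_members_of_param W hW hD hP
  choose W' e4 e6 hΔ' hss hcube hloc using fun k : ℕ => hk k
  have hC6 : W.c₆ ≠ 0 := by
    intro h
    have e := W.c_relation
    rw [h, zero_pow two_ne_zero, sub_zero] at e
    refine h4 (Int.prime_three.dvd_of_dvd_pow (n := 3) (e ▸ ?_))
    exact dvd_mul_of_dvd_left (by norm_num) _
  have hd : W.c₄ ^ 3 ≠ W.c₆ ^ 2 := by
    intro h
    have e := W.c_relation
    rw [h, sub_self, mul_eq_zero] at e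
    exact hD (e.resolve_left (by norm_num))
  obtain ⟨k, hirr⟩ := exists_irreducible_member hd ha hN (l := 3 ^ 10) W' hΔ'
    (fun k => by rw [← e4 k, ← pow_mul]) (fun k => by rw [← e6 k, ← pow_mul])
  refine ⟨W' k, ⟨hΔ' k, hss k, hirr, hcube k, hloc k⟩, ?_⟩
  intro ℓ hℓ hg hg' h5
  exact apOfModel_congr_five W (W' k) hD (fun h => h4 (h ▸ dvd_zero _)) hC6 (hΔ' k)
    (l := 3 ^ 5) (pow_ne_zero _ (by norm_num)) (by rw [← e4 k, ← pow_mul])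
    (by rw [← e6 k, ← pow_mul]) hℓ hg hg' h5

end Fermat.Agent.Extra
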