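import Fermat.Agent.Extra.Switch.Local
import Fermat.Agent.Extra.Switch.Member
import Fermat.Agent.LT.C0.Supersingular

/-!
# The switch at `5` for every semistable model

A model with `3 ∣ c₄` is good supersingular at `3` and serves itself; otherwise a member of the
family at a good `3`-adic parameter does.
-/

set_option autoImplicit false

open WeierstrassCurve Fermat.Agent.LT.C0

namespace Fermat.Agent.Extra

/-- `StmtSwitchFive` holds; irreducibility mod `5` is not needed. -/
theorem switchFive : StmtSwitchFive := by
  intro W hΔ hW _
  by_cases h4 : (3 : ℤ) ∣ W.c₄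
  · exact ⟨W, isThreeAdmissible_of_supersingular hW (fun h => hW 3 Nat.prime_three h h4) h4,
      fun ℓ _ _ _ _ => by simp⟩
  · exact exists_admissible_of_param W hW hΔ h4 (hasLocalParameter W hΔ h4)

end Fermat.Agent.Extra
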