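import Fermat.Agent.LT.C0.CuspCert

/-!
Generated certificates for the parameters `s = 11 + 9 r` near the rational cusp at `3`, at an
arbitrary value of `E = (c₄ ^ 3 - c₆ ^ 2) / 27`.
-/

set_option autoImplicit false
set_option maxRecDepth 10000

open Fermat.Agent.LT.C0

namespace Fermat.Agent.Extra

/-- The part of `fourHom (S + 27 * E) S (11 + 9 * r)` beyond its leading terms. -/
def fourRest (S E r : ℤ) : ℤ :=
    ((((((3632067084375) * E ^ 10
    + (75238228134000) * S * E ^ 9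
    + (117015336585000) * S * E ^ 9 * r)
    + (((46006183068750) * S * E ^ 9 * r ^ 2
    + (-975003347808) * S ^ 2 * E ^ 8)
    + ((-42803180879040) * S ^ 2 * E ^ 8 * r
    + (-87653327623200) * S ^ 2 * E ^ 8 * r ^ 2)))
    + ((((-60523689726000) * S ^ 2 * E ^ 8 * r ^ 3
    + (-13801854920625) * S ^ 2 * E ^ 8 * r ^ 4)
    + ((440787070920448) * S ^ 3 * E ^ 7
    + (2094519224125440) * S ^ 3 * E ^ 7 * r))
    + (((4155918986784960) * S ^ 3 * E ^ 7 * r ^ 2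
    + (4402889142557760) * S ^ 3 * E ^ 7 * r ^ 3)
    + ((2624656151937600) * S ^ 3 * E ^ 7 * r ^ 4
    + (834245452980000) * S ^ 3 * E ^ 7 * r ^ 5))))
    + ((((110414839365000) * S ^ 3 * E ^ 7 * r ^ 6
    + (-306481900327851) * S ^ 4 * E ^ 6
    + (-2122319925621760) * S ^ 4 * E ^ 6 * r)
    + (((-6337956742172160) * S ^ 4 * E ^ 6 * r ^ 2
    + (-10689598068768000) * S ^ 4 * E ^ 6 * r ^ 3)
    + ((-11157585651298080) * S ^ 4 * E ^ 6 * r ^ 4
    + (-7390144992676032) * S ^ 4 * E ^ 6 * r ^ 5)))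
    + ((((-3036222088816320) * S ^ 4 * E ^ 6 * r ^ 6
    + (-707963592254400) * S ^ 4 * E ^ 6 * r ^ 7)
    + ((-71769645587250) * S ^ 4 * E ^ 6 * r ^ 8
    + (-611314207948800) * S ^ 5 * E ^ 5))
    + (((-4732464907397120) * S ^ 5 * E ^ 5 * r
    + (-16474064075635200) * S ^ 5 * E ^ 5 * r ^ 2)
    + ((-33971803531269120) * S ^ 5 * E ^ 5 * r ^ 3
    + (-45975060424189440) * S ^ 5 * E ^ 5 * r ^ 4)))))
    + (((((-42682721101433856) * S ^ 5 * E ^ 5 * r ^ 5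
    + (-27540124573023360) * S ^ 5 * E ^ 5 * r ^ 6
    + (-12199120525206720) * S ^ 5 * E ^ 5 * r ^ 7)
    + (((-3551551923460320) * S ^ 5 * E ^ 5 * r ^ 8
    + (-613851981022800) * S ^ 5 * E ^ 5 * r ^ 9)
    + ((-47846430391500) * S ^ 5 * E ^ 5 * r ^ 10
    + (-378119735738368) * S ^ 6 * E ^ 4)))
    + ((((-3413420888555520) * S ^ 6 * E ^ 4 * r
    + (-14144962691235840) * S ^ 6 * E ^ 4 * r ^ 2)
    + ((-35587521868677120) * S ^ 6 * E ^ 4 * r ^ 3
    + (-60556129010300160) * S ^ 6 * E ^ 4 * r ^ 4))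
    + (((-73435056660716544) * S ^ 6 * E ^ 4 * r ^ 5
    + (-65088385386255360) * S ^ 6 * E ^ 4 * r ^ 6)
    + ((-42492422458575360) * S ^ 6 * E ^ 4 * r ^ 7
    + (-20282165839147680) * S ^ 6 * E ^ 4 * r ^ 8))))
    + ((((-6903704097426240) * S ^ 6 * E ^ 4 * r ^ 9
    + (-1590867426066048) * S ^ 6 * E ^ 4 * r ^ 10
    + (-222858040223520) * S ^ 6 * E ^ 4 * r ^ 11)
    + (((-14353929117450) * S ^ 6 * E ^ 4 * r ^ 12
    + (53892891716266) * S ^ 7 * E ^ 3)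
    + ((686113517731840) * S ^ 7 * E ^ 3 * r
    + (3944817623040000) * S ^ 7 * E ^ 3 * r ^ 2)))
    + ((((13679581039165440) * S ^ 7 * E ^ 3 * r ^ 3
    + (32120333694074880) * S ^ 7 * E ^ 3 * r ^ 4)
    + ((54202613985902592) * S ^ 7 * E ^ 3 * r ^ 5
    + (67949730976481280) * S ^ 7 * E ^ 3 * r ^ 6))
    + (((64399223309829120) * S ^ 7 * E ^ 3 * r ^ 7
    + (46428830722010880) * S ^ 7 * E ^ 3 * r ^ 8)
    + ((25365087717765120) * S ^ 7 * E ^ 3 * r ^ 9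
    + (10345099521841344) * S ^ 7 * E ^ 3 * r ^ 10))))))
    + ((((((3056295498759360) * S ^ 7 * E ^ 3 * r ^ 11
    + (618609058217280) * S ^ 7 * E ^ 3 * r ^ 12
    + (76816012690080) * S ^ 7 * E ^ 3 * r ^ 13)
    + (((4416593574600) * S ^ 7 * E ^ 3 * r ^ 14
    + (8446053187584) * S ^ 8 * E ^ 2)
    + ((97517232455680) * S ^ 8 * E ^ 2 * r
    + (518018857697280) * S ^ 8 * E ^ 2 * r ^ 2)))
    + ((((1675339486986240) * S ^ 8 * E ^ 2 * r ^ 3
    + (3673608180203520) * S ^ 8 * E ^ 2 * r ^ 4)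
    + ((5742837060599808) * S ^ 8 * E ^ 2 * r ^ 5
    + (6523140514775040) * S ^ 8 * E ^ 2 * r ^ 6))
    + (((5331869059645440) * S ^ 8 * E ^ 2 * r ^ 7
    + (2947865824051200) * S ^ 8 * E ^ 2 * r ^ 8)
    + ((832783711518720) * S ^ 8 * E ^ 2 * r ^ 9
    + (-207108151451136) * S ^ 8 * E ^ 2 * r ^ 10))))
    + ((((-367759288316160) * S ^ 8 * E ^ 2 * r ^ 11
    + (-209122373622240) * S ^ 8 * E ^ 2 * r ^ 12
    + (-71237412740160) * S ^ 8 * E ^ 2 * r ^ 13)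
    + (((-15325397951040) * S ^ 8 * E ^ 2 * r ^ 14
    + (-1936758071232) * S ^ 8 * E ^ 2 * r ^ 15)
    + ((-110414839365) * S ^ 8 * E ^ 2 * r ^ 16
    + (5222680231936) * S ^ 9 * E)))
    + ((((73443940761600) * S ^ 9 * E * r
    + (488402206064640) * S ^ 9 * E * r ^ 2)
    + ((2040823503912960) * S ^ 9 * E * r ^ 3
    + (6004730694205440) * S ^ 9 * E * r ^ 4))
    + (((13210717368877056) * S ^ 9 * E * r ^ 5
    + (22521225821552640) * S ^ 9 * E * r ^ 6)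
    + ((30417249160396800) * S ^ 9 * E * r ^ 7
    + (32991669969223680) * S ^ 9 * E * r ^ 8)))))
    + (((((28949489441832960) * S ^ 9 * E * r ^ 9
    + (20597596785672192) * S ^ 9 * E * r ^ 10
    + (11853726258216960) * S ^ 9 * E * r ^ 11)
    + (((5476120438763520) * S ^ 9 * E * r ^ 12
    + (2003061500697600) * S ^ 9 * E * r ^ 13)
    + ((567301448252160) * S ^ 9 * E * r ^ 14
    + (120026655603648) * S ^ 9 * E * r ^ 15)))
    + ((((17862667346160) * S ^ 9 * E * r ^ 16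
    + (1668490905960) * S ^ 9 * E * r ^ 17)
    + ((73609892910) * S ^ 9 * E * r ^ 18
    + (366503875925) * S ^ 10))
    + (((5497558138880) * S ^ 10 * r
    + (39170101739520) * S ^ 10 * r ^ 2)
    + ((176265457827840) * S ^ 10 * r ^ 3
    + (561846146826240) * S ^ 10 * r ^ 4))))
    + (((((1348430752382976) * S ^ 10 * r ^ 5
    + (2528307660718080) * S ^ 10 * r ^ 6)
    + ((3792461491077120) * S ^ 10 * r ^ 7
    + (4622062442250240) * S ^ 10 * r ^ 8))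
    + (((4622062442250240) * S ^ 10 * r ^ 9
    + (3813201514856448) * S ^ 10 * r ^ 10)
    + ((2599910123765760) * S ^ 10 * r ^ 11
    + (1462449444618240) * S ^ 10 * r ^ 12)))
    + ((((674976666746880) * S ^ 10 * r ^ 13
    + (253116250030080) * S ^ 10 * r ^ 14)
    + ((75934875009024) * S ^ 10 * r ^ 15
    + (17797236330240) * S ^ 10 * r ^ 16))
    + (((3140688764160) * S ^ 10 * r ^ 17
    + (392586095520) * S ^ 10 * r ^ 18)
    + ((30993639120) * S ^ 10 * r ^ 19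
    + (1162261467) * S ^ 10 * r ^ 20))))))

/-- The part of `cuspHom (S + 27 * E) S (11 + 9 * r)` beyond its leading terms. -/
def cuspRest (S E r : ℤ) : ℤ :=
    (((((7381125) * E ^ 6
    + (-49486788) * S * E ^ 5
    + (-81050220) * S * E ^ 5 * r)
    + ((-32476950) * S * E ^ 5 * r ^ 2
    + (-137233225) * S ^ 2 * E ^ 4
    + (-419546208) * S ^ 2 * E ^ 4 * r))
    + (((-483791616) * S ^ 2 * E ^ 4 * r ^ 2
    + (-249711660) * S ^ 2 * E ^ 4 * r ^ 3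
    + (-48715425) * S ^ 2 * E ^ 4 * r ^ 4)
    + ((25099584) * S ^ 3 * E ^ 3
    + (153046677) * S ^ 3 * E ^ 3 * r
    + (359409248) * S ^ 3 * E ^ 3 * r ^ 2)))
    + ((((428910240) * S ^ 3 * E ^ 3 * r ^ 3
    + (278526600) * S ^ 3 * E ^ 3 * r ^ 4
    + (94110984) * S ^ 3 * E ^ 3 * r ^ 5)
    + ((12990780) * S ^ 3 * E ^ 3 * r ^ 6
    + (-56885248) * S ^ 4 * E ^ 2
    + (-365039616) * S ^ 4 * E ^ 2 * r))
    + (((-1026409472) * S ^ 4 * E ^ 2 * r ^ 2
    + (-1650010560) * S ^ 4 * E ^ 2 * r ^ 3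
    + (-1657331280) * S ^ 4 * E ^ 2 * r ^ 4)
    + ((-1064438496) * S ^ 4 * E ^ 2 * r ^ 5
    + (-426696336) * S ^ 4 * E ^ 2 * r ^ 6
    + (-97575192) * S ^ 4 * E ^ 2 * r ^ 7))))
    + (((((-9743085) * S ^ 4 * E ^ 2 * r ^ 8
    + (-19864690) * S ^ 5 * E
    + (-149946368) * S ^ 5 * E * r)
    + ((-509853696) * S ^ 5 * E * r ^ 2
    + (-1028628480) * S ^ 5 * E * r ^ 3
    + (-1364014080) * S ^ 5 * E * r ^ 4))
    + (((-1242667008) * S ^ 5 * E * r ^ 5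
    + (-788014656) * S ^ 5 * E * r ^ 6
    + (-343598112) * S ^ 5 * E * r ^ 7)
    + ((-98633700) * S ^ 5 * E * r ^ 8
    + (-16839900) * S ^ 5 * E * r ^ 9
    + (-1299078) * S ^ 5 * E * r ^ 10)))
    + ((((1398101) * S ^ 6 * r
    + (11534336) * S ^ 6 * r ^ 2
    + (43253760) * S ^ 6 * r ^ 3)
    + ((97320960) * S ^ 6 * r ^ 4
    + (145981440) * S ^ 6 * r ^ 5
    + (153280512) * S ^ 6 * r ^ 6))
    + (((114960384) * S ^ 6 * r ^ 7
    + (61585920) * S ^ 6 * r ^ 8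
    + (23094720) * S ^ 6 * r ^ 9)
    + ((5773680) * S ^ 6 * r ^ 10
    + (866052) * S ^ 6 * r ^ 11
    + (59049) * S ^ 6 * r ^ 12))))

theorem fourHom_near_cusp (S E r : ℤ) :
    fourHom (S + 27 * E) S (11 + 9 * r) =
      3 ^ 20 * (S ^ 10 + 2 * S ^ 7 * E ^ 3 + S ^ 4 * E ^ 6) + 3 ^ 21 * fourRest S E r := by
  simp only [fourHom, fourRest]
  ring

theorem cuspHom_near_cusp (S E r : ℤ) :
    cuspHom (S + 27 * E) S (11 + 9 * r) =
      3 ^ 12 * (S ^ 2 * E ^ 4 + 2 * S ^ 5 * E) + 3 ^ 13 * r * (S ^ 3 * E ^ 3 + S ^ 6) +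
        3 ^ 14 * cuspRest S E r := by
  simp only [cuspHom, cuspRest]
  ring

theorem sub_dvd_cuspRest_sub (S E x y : ℤ) : x - y ∣ cuspRest S E x - cuspRest S E y := by
  have hxy : y ≡ x [ZMOD x - y] := Int.modEq_iff_dvd.2 dvd_rfl
  refine Int.modEq_iff_dvd.1 ?_
  unfold cuspRest
  gcongr

end Fermat.Agent.Extra
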