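import Fermat.Agent.LT.C0.Defs
import Fermat.Agent.LT.C0.Explicit

/-!
# The two switches behind modularity of every semistable model

* `StmtSwitchFive`: a semistable model with irreducible mod `5` representation is congruent
  mod `5` to a model admissible for the descent.
* `StmtSwitchThree`: a semistable model with irreducible mod `3` representation is congruent
  mod `3` to a semistable model with irreducible mod `5` representation.
* `HasLocalParameter`: the `3`-adic condition on the parameter of the family used by the first.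
-/

set_option autoImplicit false

open WeierstrassCurve Fermat.Agent.LT.C0

namespace Fermat.Agent.Extra

/-- The switch at `5` into the curves of the descent, for every semistable model. -/
def StmtSwitchFive : Prop :=
  ∀ W : WeierstrassCurve ℤ, W.Δ ≠ 0 → W.IsSemistableModel → W.ModRepIsIrreducible 5 →
    ∃ W' : WeierstrassCurve ℤ, IsThreeAdmissible W' ∧
      ∀ ℓ : ℕ, ℓ.Prime → W.IsGoodPrimeFor ℓ → W'.IsGoodPrimeFor ℓ → ℓ ≠ 5 →
        (5 : ℤ) ∣ (W'.apOfModel ℓ - W.apOfModel ℓ)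

/-- The switch at `3` into models with irreducible mod `5` representation. -/
def StmtSwitchThree : Prop :=
  ∀ W : WeierstrassCurve ℤ, W.Δ ≠ 0 → W.IsSemistableModel → W.ModRepIsIrreducible 3 →
    ∃ W' : WeierstrassCurve ℤ, W'.Δ ≠ 0 ∧ W'.IsSemistableModel ∧ W'.ModRepIsIrreducible 5 ∧
      ∀ ℓ : ℕ, ℓ.Prime → W.IsGoodPrimeFor ℓ → W'.IsGoodPrimeFor ℓ → ℓ ≠ 3 →
        (3 : ℤ) ∣ (W'.apOfModel ℓ - W.apOfModel ℓ)

/-- At every parameter `b ≡ t a (mod 3 ^ K)`, `3 ∤ a`, the member of the family, scaled by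
`3 ^ 5`, is good supersingular or multiplicative at `3`, with discriminant in the cube class. -/
def HasLocalParameter (W : WeierstrassCurve ℤ) : Prop :=
  ∃ (t : ℤ) (K : ℕ), ∀ a b : ℤ, ¬ (3 : ℤ) ∣ a → (3 : ℤ) ^ K ∣ b - t * a →
    ∃ G₄ D : ℤ, fourExplicit W.c₄ W.c₆ a b = 3 ^ 20 * G₄ ∧
      W.Δ * cuspPoly W.c₄ W.c₆ a b ^ 5 = 3 ^ 60 * D ∧ IsCubeClassThree D ∧
      ((¬ (3 : ℤ) ∣ D ∧ (3 : ℤ) ∣ G₄) ∨ ((3 : ℤ) ∣ D ∧ ¬ (3 : ℤ) ∣ G₄))

end Fermat.Agent.Extra
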