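import Fermat.Agent.Extra.Switch.Certificate
import Fermat.Agent.Extra.Switch.Statements
import Fermat.Agent.LT.C0.SwitchThree

/-!
# The `3`-adic parameter of the switch at `5`

If `3 ∤ c₄` the disk `a = c₄`, `b = -c₆ (11 + 9 r)` contains parameters whose member, scaled by
`3 ^ 5`, is
* good supersingular when `Δ ≡ 2 (mod 3)` (`r = 0`);
* multiplicative with discriminant in the cube class otherwise: the cusp polynomial divided by
  `3 ^ 13` is then a bijection in `r` modulo every power of `3`.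
-/

set_option autoImplicit false

open WeierstrassCurve Fermat.Agent.LT.C0

namespace Fermat.Agent.Extra

/-- A map which is affine with unit slope modulo `3` takes every value modulo `3 ^ m`. -/
theorem exists_preimage_three_pow {α A₁ T : ℤ} (hα : ¬ (3 : ℤ) ∣ α) {p : ℤ → ℤ}
    (hp : ∀ x y : ℤ, x - y ∣ p x - p y) (m : ℕ) :
    ∃ r : ℤ, (3 : ℤ) ^ m ∣ A₁ + α * r + 3 * p r - T := by
  induction m with
  | zero => exact ⟨0, by simp⟩
  | succ m ih =>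
    obtain ⟨r, q, hq⟩ := ih
    obtain ⟨z, hz⟩ := hp (r + 3 ^ m * (-q * α)) r
    obtain ⟨w, hw⟩ : (3 : ℤ) ∣ 1 - α * α := by
      have key : ∀ x : ZMod 3, x ≠ 0 → 1 - x * x = 0 := by decide
      refine (ZMod.intCast_zmod_eq_zero_iff_dvd _ 3).1 ?_
      push_cast
      exact key _ fun h => hα ((ZMod.intCast_zmod_eq_zero_iff_dvd _ 3).1 h)
    refine ⟨r + 3 ^ m * (-q * α), q * w - q * α * z, ?_⟩
    rw [pow_succ]
    linear_combination hq + 3 * hz + 3 ^ m * q * hw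

/-- The forms of the family near the parameter `a = c₄`, `b = -c₆ s`, modulo `3 ^ 22`. -/
theorem explicit_near_cusp (W : WeierstrassCurve ℤ) {x y a b r : ℤ}
    (hxy : x * 3 ^ 22 + y * W.c₄ = 1)
    (hb : (3 : ℤ) ^ 22 ∣ b - (-W.c₆ * (11 + 9 * r) * y) * a) :
    ((3 : ℤ) ^ 22 ∣ fourExplicit W.c₄ W.c₆ a b -
        (a * y) ^ 20 * W.c₄ * fourHom (W.c₆ ^ 2 + 27 * (64 * W.Δ)) (W.c₆ ^ 2) (11 + 9 * r)) ∧
      (3 : ℤ) ^ 22 ∣ cuspPoly W.c₄ W.c₆ a b -
        (a * y) ^ 12 * cuspHom (W.c₆ ^ 2 + 27 * (64 * W.Δ)) (W.c₆ ^ 2) (11 + 9 * r) := by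
  let φ := Int.castRingHom (ZMod (3 ^ 22))
  have hz : ∀ z : ℤ, φ z = 0 ↔ (3 : ℤ) ^ 22 ∣ z := fun z => by
    have h := ZMod.intCast_zmod_eq_zero_iff_dvd z (3 ^ 22)
    rw [Nat.cast_pow] at h
    exact h
  have ha' : φ a = φ (a * y * W.c₄) := by
    rw [← sub_eq_zero, ← map_sub, hz]
    exact ⟨a * x, by linear_combination (-a) * hxy⟩
  have hb' : φ b = φ (a * y * (-W.c₆ * (11 + 9 * r))) := by
    rw [← sub_eq_zero, ← map_sub, hz]
    rwa [show b - a * y * (-W.c₆ * (11 + 9 * r)) = b - (-W.c₆ * (11 + 9 * r) * y) * a by ring]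
  have hC : W.c₄ ^ 3 = W.c₆ ^ 2 + 27 * (64 * W.Δ) := by linear_combination -W.c_relation
  constructor
  · rw [← hz, map_sub, map_fourExplicit, ha', hb', ← map_fourExplicit, fourExplicit_mul,
      fourHom_eq, hC, ← map_sub, hz]
    exact ⟨0, by ring⟩
  · rw [← hz, map_sub, map_cuspPoly, ha', hb', ← map_cuspPoly, cuspPoly_mul,
      cuspHom_eq, hC, ← map_sub, hz]
    exact ⟨0, by ring⟩

private theorem unit_pow_six {z : ℤ} (h : ¬ (3 : ℤ) ∣ z) : (z : ZMod 9) ^ 6 = 1 := by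
  have key : ∀ x : ZMod 9, ZMod.castHom (show 3 ∣ 9 by norm_num) (ZMod 3) x ≠ 0 → x ^ 6 = 1 := by
    decide
  refine key _ ?_
  rw [map_intCast]
  exact fun h0 => h ((ZMod.intCast_zmod_eq_zero_iff_dvd z 3).1 h0)

/-- Every model with `3 ∤ c₄` has a good parameter at `3`. -/
theorem hasLocalParameter (W : WeierstrassCurve ℤ) (hΔ : W.Δ ≠ 0) (h4 : ¬ (3 : ℤ) ∣ W.c₄) :
    HasLocalParameter W := by
  obtain ⟨x, y, hxy⟩ : IsCoprime ((3 : ℤ) ^ 22) W.c₄ :=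
    (Int.prime_three.coprime_iff_not_dvd.mpr h4).pow_left
  have h6 : ¬ (3 : ℤ) ∣ W.c₆ := fun h => h4 <| Int.prime_three.dvd_of_dvd_pow (n := 3) <| by
    rw [show W.c₄ ^ 3 = W.c₆ ^ 2 + 3 * (576 * W.Δ) by linear_combination -W.c_relation]
    exact dvd_add (dvd_pow h two_ne_zero) (dvd_mul_right _ _)
  have hy : ¬ (3 : ℤ) ∣ y := fun h => by
    have : (3 : ℤ) ∣ 1 := hxy ▸ dvd_add (dvd_mul_of_dvd_right (dvd_pow_self 3 (by norm_num)) x)
      (h.mul_right _)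
    norm_num at this
  set S := W.c₆ ^ 2 with hS
  set E := 64 * W.Δ with hE
  have hS9 : (S : ZMod 9) = 1 := by
    have key : ∀ u v : ZMod 9, v ^ 2 = u ^ 3 → v ^ 6 = 1 → v ^ 2 = 1 := by decide
    rw [hS, Int.cast_pow]
    refine key (W.c₄ : ZMod 9) _ ?_ (unit_pow_six h6)
    have e := congrArg (Int.cast (R := ZMod 9)) W.c_relation
    push_cast at e
    rw [show (1728 : ZMod 9) = 0 by decide, zero_mul] at e
    exact (sub_eq_zero.1 e.symm).symm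
  have hE9 : (E : ZMod 9) = (W.Δ : ZMod 9) := by
    rw [hE]; push_cast; rw [show (64 : ZMod 9) = 1 by decide, one_mul]
  have hS3 : (S : ZMod 3) = 1 := by
    have h := congrArg (ZMod.castHom (show 3 ∣ 9 by norm_num) (ZMod 3)) hS9
    rwa [map_intCast, map_one] at h
  have hE3 : (E : ZMod 3) = (W.Δ : ZMod 3) := by
    rw [hE]; push_cast; rw [show (64 : ZMod 3) = 1 by decide, one_mul]
  by_cases hΔ3 : (W.Δ : ZMod 3) = 2
  · -- the supersingular disk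
    refine ⟨-W.c₆ * (11 + 9 * 0) * y, 22, fun a b ha hb => ?_⟩
    obtain ⟨⟨g, hg⟩, g', hg'⟩ := explicit_near_cusp W (r := 0) hxy hb
    rw [← hE, ← hS] at hg hg'
    rw [fourHom_near_cusp] at hg
    rw [cuspHom_near_cusp] at hg'
    set f : ℤ := (a * y) ^ 12 * (S ^ 2 * E ^ 4 + 2 * S ^ 5 * E + 9 * cuspRest S E 0)
      + 3 ^ 10 * g' with hf
    have hF : cuspPoly W.c₄ W.c₆ a b = 3 ^ 12 * f := by linear_combination hg'
    have hc : ((a * y : ℤ) : ZMod 9) ^ 12 = 1 := by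
      rw [show 12 = 6 * 2 by norm_num, pow_mul, unit_pow_six fun h =>
        (Int.prime_three.dvd_or_dvd h).elim ha hy, one_pow]
    have hD9 : ((W.Δ * f ^ 5 : ℤ) : ZMod 9) = 1 := by
      have key : ∀ δ : ZMod 9, ZMod.castHom (show 3 ∣ 9 by norm_num) (ZMod 3) δ = 2 →
          δ * (δ ^ 4 + 2 * δ) ^ 5 = 1 := by decide
      rw [← key (W.Δ : ZMod 9) (by rw [map_intCast]; exact hΔ3), hf]
      push_cast at hc ⊢
      rw [hS9, hE9, hc, show (9 : ZMod 9) = 0 by decide, show (59049 : ZMod 9) = 0 by decide]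
      ring
    refine ⟨(a * y) ^ 20 * W.c₄ *
      (S ^ 10 + 2 * S ^ 7 * E ^ 3 + S ^ 4 * E ^ 6 + 3 * fourRest S E 0) + 9 * g, W.Δ * f ^ 5,
      by linear_combination hg, by rw [hF]; ring, ⟨0, W.Δ * f ^ 5, by simp, Or.inl ?_⟩,
      Or.inl ⟨fun h => ?_, ?_⟩⟩
    · refine (ZMod.intCast_zmod_eq_zero_iff_dvd _ 9).1 ?_
      rw [Int.cast_sub, hD9, Int.cast_one, sub_self]
    · have h1 := congrArg (ZMod.castHom (show 3 ∣ 9 by norm_num) (ZMod 3)) hD9
      rw [map_intCast, map_one, (ZMod.intCast_zmod_eq_zero_iff_dvd _ 3).2 h] at h1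
      exact zero_ne_one h1
    · refine (ZMod.intCast_zmod_eq_zero_iff_dvd _ 3).1 ?_
      push_cast
      rw [hS3, hE3, hΔ3, show (3 : ZMod 3) = 0 by decide, show (9 : ZMod 3) = 0 by decide,
        show (1 : ZMod 3) ^ 10 + 2 * 1 ^ 7 * 2 ^ 3 + 1 ^ 4 * 2 ^ 6 = 0 by decide]
      ring
  · -- the multiplicative disks
    obtain ⟨v, d, hd, hD⟩ : ∃ (v : ℕ) (d : ℤ), ¬ (3 : ℤ) ∣ d ∧ W.Δ = 3 ^ v * d := by
      obtain ⟨d, h1, h2⟩ := (Int.finiteMultiplicity_iff.2 ⟨by norm_num, hΔ⟩ :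
        FiniteMultiplicity (3 : ℤ) W.Δ).exists_eq_pow_mul_and_not_dvd
      exact ⟨_, d, h2, h1⟩
    obtain ⟨A₁, hA₁⟩ : (3 : ℤ) ∣ S ^ 2 * E ^ 4 + 2 * S ^ 5 * E := by
      have key : ∀ δ : ZMod 3, δ ≠ 2 → δ ^ 4 + 2 * δ = 0 := by decide
      refine (ZMod.intCast_zmod_eq_zero_iff_dvd _ 3).1 ?_
      push_cast
      rw [hS3, hE3, ← key _ hΔ3]
      ring
    have hB : ¬ (3 : ℤ) ∣ S ^ 3 * E ^ 3 + S ^ 6 := fun h => by
      have key : ∀ δ : ZMod 3, δ ≠ 2 → δ ^ 3 + 1 ≠ 0 := by decide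
      apply key _ hΔ3
      rw [← (ZMod.intCast_zmod_eq_zero_iff_dvd _ 3).2 h]
      push_cast
      rw [hS3, hE3]
      ring
    set j : ℕ := (v + 2) % 3 with hj
    obtain ⟨r, q, hq⟩ := exists_preimage_three_pow (A₁ := A₁) (T := 3 ^ j * d) hB
      (sub_dvd_cuspRest_sub S E) (j + 2)
    refine ⟨-W.c₆ * (11 + 9 * r) * y, 22, fun a b ha hb => ?_⟩
    obtain ⟨⟨g, hg⟩, g', hg'⟩ := explicit_near_cusp W (r := r) hxy hb
    rw [← hE, ← hS] at hg hg'
    rw [fourHom_near_cusp] at hg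
    rw [cuspHom_near_cusp] at hg'
    have hc3 : ¬ (3 : ℤ) ∣ a * y := fun h => (Int.prime_three.dvd_or_dvd h).elim ha hy
    set f : ℤ := (a * y) ^ 12 * (d + 9 * q) + 3 ^ (9 - j) * g' with hf
    have hF : cuspPoly W.c₄ W.c₆ a b = 3 ^ (13 + j) * f := by
      have e : (3 : ℤ) ^ (13 + j) * (3 ^ (9 - j) * g') = 3 ^ 22 * g' := by
        rw [← mul_assoc, ← pow_add]
        congr 2
        omega
      rw [hf, mul_add, e]
      rw [pow_add, pow_two] at hq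
      rw [pow_add]
      linear_combination hg' + 3 ^ 12 * (a * y) ^ 12 * hA₁ + 3 ^ 13 * (a * y) ^ 12 * hq
    have hf9 : (f : ZMod 9) = (d : ZMod 9) := by
      have h3 : ∀ n : ℕ, (3 : ZMod 9) ^ (n + 2) = 0 := fun n => by
        rw [pow_add, show (3 : ZMod 9) ^ 2 = 0 by decide, mul_zero]
      have hc : (((a * y : ℤ) : ZMod 9)) ^ 12 = 1 := by
        rw [show 12 = 6 * 2 by norm_num, pow_mul, unit_pow_six hc3, one_pow]
      rw [hf, show 9 - j = (7 - j) + 2 by omega]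
      push_cast at hc ⊢
      rw [hc, h3, show (9 : ZMod 9) = 0 by decide]
      ring
    obtain ⟨m, hm⟩ : 3 ∣ v + 5 + 5 * j := by omega
    refine ⟨(a * y) ^ 20 * W.c₄ *
      (S ^ 10 + 2 * S ^ 7 * E ^ 3 + S ^ 4 * E ^ 6 + 3 * fourRest S E r) + 9 * g,
      3 ^ (v + 5 + 5 * j) * (d * f ^ 5), by linear_combination hg, ?_,
      ⟨m, d * f ^ 5, by rw [hm], Or.inl ?_⟩, Or.inr ⟨?_, fun h => ?_⟩⟩
    · rw [hF, hD, mul_pow, ← pow_mul, show (13 + j) * 5 = 65 + 5 * j by ring]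
      ring
    · refine (ZMod.intCast_zmod_eq_zero_iff_dvd _ 9).1 ?_
      push_cast
      rw [hf9, show (d : ZMod 9) * (d : ZMod 9) ^ 5 = (d : ZMod 9) ^ 6 by ring, unit_pow_six hd,
        sub_self]
    · exact dvd_mul_of_dvd_left (dvd_pow_self 3 (by omega)) _
    · rw [dvd_add_left (dvd_mul_of_dvd_left (by norm_num) g)] at h
      rcases Int.prime_three.dvd_or_dvd h with h | h
      · rcases Int.prime_three.dvd_or_dvd h with h | h
        · exact hc3 (Int.prime_three.dvd_of_dvd_pow h)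
        · exact h4 h
      · have key : ∀ δ : ZMod 3, δ ≠ 2 → 1 + 2 * δ ^ 3 + δ ^ 6 ≠ 0 := by decide
        have h' := (ZMod.intCast_zmod_eq_zero_iff_dvd _ 3).2 h
        push_cast at h'
        rw [hS3, hE3, show (3 : ZMod 3) = 0 by decide] at h'
        exact key _ hΔ3 (by linear_combination h')

end Fermat.Agent.Extra
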